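import Fermat.Agent.OrdinaryDeRham.Shape
import Fermat.Agent.HasseBound.Main

/-!
# An elliptic curve with good ordinary reduction at `p` is de Rham at `p`

An extension of a character of exponent zero by a twist of the cyclotomic character by another one
has a period basis with Hodge–Tate weights `1` and `0`.
-/

set_option autoImplicit false
set_option linter.unusedSectionVars false

noncomputable section

open Finset Matrix WeierstrassCurve FA.TateSen FA.BDR FA.Sen FA.PadicHodge FA.PadicDescent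
  FA.PadicChar FA.CurveDR FA.RT.Tate FA.Frob
open scoped WeierstrassCurve.Affine

namespace FA.OrdDR

variable {p : ℕ} [hp : Fact p.Prime]

local notation "Cp" => ℂ_[p]
local notation "G" => PadicAlgCl p ≃ₐ[ℚ_[p]] PadicAlgCl p

/-- The inverse of a character. -/
def invChar (η : G →* ℚ_[p]) : G →* ℚ_[p] where
  toFun τ := (η τ)⁻¹
  map_one' := by rw [map_one, inv_one]
  map_mul' σ τ := by rw [map_mul, mul_inv]

theorem char_ne_zero {η : G →* ℚ_[p]} (hη : Continuous η) (τ : G) : η τ ≠ 0 :=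
  norm_ne_zero_iff.1 ((norm_hom_eq_one hη τ).trans_ne one_ne_zero)

theorem continuous_invChar {η : G →* ℚ_[p]} (hη : Continuous η) : Continuous (invChar η) :=
  hη.inv₀ fun τ => char_ne_zero hη τ

theorem isLocAlg_invChar {η : G →* ℚ_[p]} (h : IsLocAlg η 0) : IsLocAlg (invChar η) 0 := by
  obtain ⟨V, hV, hV0⟩ := h
  exact ⟨V, hV, fun σ hσ hI => by
    show (η σ)⁻¹ = _
    rw [hV0 σ hσ hI, zpow_zero, inv_one]⟩

theorem isLocAlg_twist {α : G →* ℚ_[p]} {i : ℤ} (h : IsLocAlg α i) (j : ℤ) :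
    IsLocAlg (twistChar α j) (i + j) := by
  obtain ⟨V, hV, hVi⟩ := h
  refine ⟨V, hV, fun σ hσ hI => ?_⟩
  show α σ * _ = _
  rw [hVi σ hσ hI, zpow_add₀ (chi_ne_zero σ)]

/-- A locally algebraic character of exponent `j` has a period of weight `j`. -/
theorem locAlg_piece {η : G →* ℚ_[p]} (hη : Continuous η) {j : ℤ} (h : IsLocAlg η j) :
    IsDeRham (charRep η) ∧ ∃ P : (Matrix Unit Unit Cp)ˣ, ∀ τ,
      FA.Sen.conj (cpRep (charRep η)) P τ = Matrix.diagonal fun _ => twist p j τ := by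
  refine ⟨isDeRham_of_isLocAlg hη h, ?_⟩
  obtain ⟨d, hd, hψ⟩ := pow_eq_one_of_isLocAlg hη h
  obtain ⟨y, hy⟩ := exists_unit_period (continuous_urPart hη) fun σ => urPart_inertia hη
  obtain ⟨a, ha⟩ :=
    exists_unit_period_of_pow (continuous_twistChar (continuous_cycPart hη) (-j)) hd hψ
  obtain ⟨P, hP⟩ : IsUnit
      (Matrix.diagonal fun _ : Unit => thetaPlus p ((y : BPlus p) * (a : BPlus p))) :=
    Matrix.isUnit_diagonal.2 (Pi.isUnit_iff.2 fun _ => (y * a).isUnit.map (thetaPlus p))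
  refine ⟨P, fun τ => ?_⟩
  have e : η τ = urPart hη τ * twistChar (cycPart hη) (-j) τ *
      ((chi p τ : ℤ_[p]) : ℚ_[p]) ^ j := by
    conv_lhs => rw [← urPart_mul_cycPart hη τ]
    show _ = urPart hη τ * (cycPart hη τ * _) * _
    rw [mul_assoc, mul_assoc, ← zpow_add₀ (chi_ne_zero τ), neg_add_cancel, zpow_zero, mul_one]
  have h1 := congrArg (thetaPlus p) (hy τ)
  have h2 := congrArg (thetaPlus p) (ha τ)
  rw [map_mul, thetaPlus_qpHom, smul_bplus_def, thetaPlus_bplusGal] at h1 h2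
  rw [conj_charRep_eq hP (η' := twistChar 1 j) (by
    show algebraMap ℚ_[p] Cp (η τ) * _ =
      _ * algebraMap ℚ_[p] Cp ((1 : ℚ_[p]) * ((chi p τ : ℤ_[p]) : ℚ_[p]) ^ j)
    rw [e, one_mul, map_mul, map_mul, map_mul, map_mul]
    conv_rhs => rw [← h1, ← h2]
    ring), cpRep_charRep]
  refine congrArg Matrix.diagonal (funext fun _ => ?_)
  show algebraMap ℚ_[p] Cp ((1 : ℚ_[p]) * _) = twist p j τ
  rw [one_mul]
  rfl

/-- **Extensions of a character of exponent zero by such a twist of the cyclotomic one.** -/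
theorem isDeRham_of_shape {ρ : G → Matrix (Fin 2) (Fin 2) ℚ_[p]} (hρ : IsQpRep p (Fin 2) ρ)
    {C : (Matrix (Fin 2) (Fin 2) ℚ_[p])ˣ} {α η : G →* ℚ_[p]} {y : G → ℚ_[p]}
    (hα : Continuous α) (hη : Continuous η) (hα0 : IsLocAlg α 0) (hη0 : IsLocAlg η 0)
    (hC : ∀ τ, ρ τ * (C : Matrix (Fin 2) (Fin 2) ℚ_[p]) =
      (C : Matrix (Fin 2) (Fin 2) ℚ_[p]) *
        !![((chi p τ : ℤ_[p]) : ℚ_[p]) * α τ, y τ; 0, η τ]) :
    IsDeRham ρ ∧ ∃ P : (Matrix (Fin 2) (Fin 2) Cp)ˣ, ∀ τ,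
      FA.Sen.conj (cpRep ρ) P τ = Matrix.diagonal fun i => twist p (![1, 0] i) τ := by
  obtain ⟨hA, P, hP⟩ := locAlg_piece (continuous_twistChar hα 1) (isLocAlg_twist hα0 1)
  obtain ⟨hD, Q₀, hQ₀⟩ := locAlg_piece hη hη0
  rw [zero_add] at hP
  set b : G → Matrix Unit Unit ℚ_[p] := fun τ => Matrix.of fun _ _ => y τ
  set ρ' : G → Matrix (Unit ⊕ Unit) (Unit ⊕ Unit) ℚ_[p] := fun τ =>
    Matrix.fromBlocks (charRep (twistChar α 1) τ) (b τ) 0 (charRep η τ) with hρ'
  let e₀ : Fin 2 ≃ Unit ⊕ Unit :=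
    { toFun := ![Sum.inl (), Sum.inr ()]
      invFun := Sum.elim (fun _ => 0) fun _ => 1
      left_inv := fun i => by fin_cases i <;> rfl
      right_inv := fun s => by rcases s with _ | _ <;> rfl }
  have hTρ : ∀ τ, ρ' τ = (!![((chi p τ : ℤ_[p]) : ℚ_[p]) * α τ, y τ; 0, η τ]).submatrix
      e₀.symm e₀.symm := fun τ => by
    refine Matrix.ext fun s t => ?_
    rcases s with _ | _ <;> rcases t with _ | _ <;>
      simp [hρ', b, e₀, charRep, twistChar, mul_comm]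
  set F : Matrix (Fin 2) (Unit ⊕ Unit) ℚ_[p] :=
    (C : Matrix (Fin 2) (Fin 2) ℚ_[p]).submatrix id e₀.symm
  set R : Matrix (Unit ⊕ Unit) (Fin 2) ℚ_[p] :=
    (↑C⁻¹ : Matrix (Fin 2) (Fin 2) ℚ_[p]).submatrix e₀.symm id
  have hFR : F * R = 1 := by
    rw [Matrix.submatrix_mul_equiv, Units.mul_inv, Matrix.submatrix_id_id]
  have hRF : R * F = 1 := by
    rw [← Matrix.submatrix_mul _ _ _ id _ Function.bijective_id, Units.inv_mul,
      Matrix.submatrix_one_equiv]
  have hF : ∀ τ, F * ρ' τ = ρ τ * F := fun τ => by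
    rw [hTρ, Matrix.submatrix_mul_equiv, ← hC,
      Matrix.submatrix_mul _ _ _ id _ Function.bijective_id, Matrix.submatrix_id_id]
  have hU : IsQpRep p (Unit ⊕ Unit) ρ' := by
    have e : ∀ τ, ρ' τ = R * (ρ τ * F) := fun τ => by
      rw [← hF, ← Matrix.mul_assoc, hRF, Matrix.one_mul]
    refine ⟨?_, ?_, fun σ τ => ?_⟩
    · rw [funext e]
      exact continuous_const.matrix_mul (hρ.cont.matrix_mul continuous_const)
    · rw [e, hρ.map_one, Matrix.one_mul, hRF]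
    · rw [e, e, e, hρ.map_mul]
      simp only [Matrix.mul_assoc]
      rw [← Matrix.mul_assoc F R, hFR, Matrix.one_mul]
  obtain ⟨hdR, Q, hQ⟩ := FA.BDRCoh.isDeRham_fromBlocks hU hA hD (j := fun _ => 1)
    (k := fun _ => 0) hP hQ₀ fun _ _ => zero_lt_one
  refine ⟨isDeRham_quotient hFR hF hdR, ?_⟩
  obtain ⟨Q', hQ'⟩ := exists_conj_of_iso hFR hRF hF e₀ hQ
  refine ⟨Q', fun τ => (hQ' τ).trans (congrArg Matrix.diagonal (funext fun i => ?_))⟩
  fin_cases i <;> rfl

variable {W : WeierstrassCurve ℤ} [(ratCurve W).IsElliptic]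

/-- **Good ordinary reduction at `p` gives a de Rham representation of weights `1` and `0`.** -/
theorem isDeRham_of_ordinary (hg : W.IsGoodPrimeFor p) (ha : ¬ (p : ℤ) ∣ W.apOfModel p)
    (B : TateBasis p W) :
    IsDeRham (curveAtP B) ∧ ∃ P : (Matrix (Fin 2) (Fin 2) Cp)ˣ, ∀ τ,
      FA.Sen.conj (cpRep (curveAtP B)) P τ =
        Matrix.diagonal fun i => twist p (![1, 0] i) τ := by
  obtain ⟨C, η, y, hη, -, -, hI, -, hC⟩ := exists_shape hg ha B
  exact isDeRham_of_shape (isQpRep_curveAtP B) (continuous_invChar hη) hη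
    (isLocAlg_invChar ⟨⊤, isOpen_univ, fun σ _ hσ => by rw [hI σ hσ, zpow_zero]⟩)
    ⟨⊤, isOpen_univ, fun σ _ hσ => by rw [hI σ hσ, zpow_zero]⟩ hC

/-- The unit root is not one and it is the only root which is a unit. -/
theorem unit_root_unique (hg : W.IsGoodPrimeFor p) {η : ℚ_[p]} (hn : ‖η‖ = 1)
    (h : η ^ 2 - (W.apOfModel p : ℚ_[p]) * η + (p : ℚ_[p]) = 0) :
    η ≠ 1 ∧ ∀ β : ℚ_[p], ‖β‖ = 1 →
      β ^ 2 - (W.apOfModel p : ℚ_[p]) * β + (p : ℚ_[p]) = 0 → β = η := by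
  refine ⟨?_, fun β hβ hβ' => ?_⟩
  · rintro rfl
    have := isElliptic_reductionMod hg
    have h1 := FA.HasseBound.traceOfFrobenius_sq_le (W.reductionMod p)
    rw [← apOfModel] at h1
    have h2 : ((W.apOfModel p : ℤ) : ℚ_[p]) = ((p + 1 : ℤ) : ℚ_[p]) := by
      push_cast
      linear_combination -h
    rw [Int.cast_inj.1 h2] at h1
    have h3 : (2 : ℤ) ≤ p := by exact_mod_cast hp.out.two_le
    nlinarith
  · by_contra hne
    have h1 : (β - η) * (β + η - (W.apOfModel p : ℚ_[p])) = 0 := by linear_combination hβ' - h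
    have h2 : β * η = (p : ℚ_[p]) := by
      linear_combination -h + η * (mul_eq_zero.1 h1).resolve_left (sub_ne_zero.2 hne)
    have h3 : ‖(p : ℚ_[p])‖ < 1 := Padic.norm_p_lt_one
    rw [← h2, norm_mul, hβ, hn, one_mul] at h3
    exact lt_irrefl _ h3

end FA.OrdDR
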