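import Fermat.Agent.OrdinaryDeRham.Residue
import Fermat.Agent.Supersingular.Criterion
import Fermat.Agent.OpenImageAll.Reduction

/-!
# The Tate module at a prime of good ordinary reduction

Multiplication by `p` on the reduced equation has `p` points in its kernel, so the reduction of
the `p ^ n`-torsion is cyclic of order `p ^ n`. In a suitable basis its kernel is the first axis
at every level.
-/

set_option autoImplicit false
set_option linter.unusedSectionVars false
set_option linter.style.haveILetI false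

noncomputable section

open Matrix WeierstrassCurve FA.Frob FA.EC FA.Local FA.RT.Tate
open scoped WeierstrassCurve.Affine Classical

namespace FA.OrdDR

local notation "Qb" => AlgebraicClosure ℚ

variable (p : ℕ) [hp : Fact p.Prime]

/-- The residue field of the place at `p`. -/
abbrev ResP : Type := IsLocalRing.ResidueField (padicPlace p)

instance isAlgClosed_resP : IsAlgClosed (ResP p) := residueField_isAlgClosed _

instance charP_resP : CharP (ResP p) p :=
  residueField_charP _ hp.out (FA.GalCoh.liesOverPrime_padicPlace p)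

variable {p} {W : WeierstrassCurve ℤ} [(ratCurve W).IsElliptic]

variable (p W) in
/-- The reduced equation at the place at `p`. -/
abbrev redP : WeierstrassCurve (ResP p) :=
  redCurve (padicPlace p) ((ratCurve W)⁄Qb).toAffine (intCoeff_ratCurve W _)

variable (hg : W.IsGoodPrimeFor p)

include hg in
theorem redP_isElliptic : (redP p W).IsElliptic :=
  redCurve_isElliptic _
    (valuation_Δ_ratCurve W hp.out (FA.GalCoh.liesOverPrime_padicPlace p) hg)

/-- Reduction of the points. -/
def redPt : Pts W →+ (redP p W).toAffine.Point :=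
  have hΔ := valuation_Δ_ratCurve W hp.out (FA.GalCoh.liesOverPrime_padicPlace p) hg
  haveI := redCurve_isElliptic (intCoeff_ratCurve W (padicPlace p)) hΔ
  redHom (intCoeff_ratCurve W (padicPlace p)) hΔ

theorem redPt_eq_zero_iff {P : Pts W} :
    redPt hg P = 0 ↔ E1 (padicPlace p).valuation ((ratCurve W)⁄Qb).toAffine P :=
  haveI := redP_isElliptic hg
  redFun_eq_zero_iff (intCoeff_ratCurve W (padicPlace p))

variable (p W) in
/-- The coefficient map to the residue field. -/
abbrev castP : ZMod p →+* ResP p := ZMod.castHom (dvd_refl p) (ResP p)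

theorem redP_eq_map : redP p W = (W.reductionMod p).map (castP p) := by
  rw [redP, redCurve_ratCurve, reductionMod, WeierstrassCurve.map_map]
  congr 1
  exact RingHom.ext_int _ _

include hg in
theorem isElliptic_reductionMod : (W.reductionMod p).IsElliptic := ⟨by
  rw [reductionMod, WeierstrassCurve.map_Δ]
  refine (Ne.isUnit fun h => hg ?_)
  exact (ZMod.intCast_zmod_eq_zero_iff_dvd _ p).mp h⟩

theorem map_frobenius_redP : (redP p W).map (frobenius (ResP p) p) = redP p W := by
  rw [redP_eq_map]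
  exact map_frobenius_map _ _

include hg in
/-- The reduced equation has `p ^ n` points killed by `p ^ n`. -/
theorem natCard_redP (ha : ¬ (p : ℤ) ∣ W.apOfModel p) (n : ℕ) :
    Nat.card (nsmulAddMonoidHom (α := (redP p W).toAffine.Point) (p ^ n)).ker = p ^ n := by
  have := isElliptic_reductionMod hg
  rw [redP_eq_map]
  exact FA.DeuringCriterion.natCard_pow (W.reductionMod p) (castP p) ha n

include hg in
/-- Some point of order `p` has nonzero reduction. -/
theorem exists_redPt_ne_zero (ha : ¬ (p : ℤ) ∣ W.apOfModel p) :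
    ∃ T : Pts W, p • T = 0 ∧ redPt hg T ≠ 0 := by
  have hA := FA.GalCoh.liesOverPrime_padicPlace p
  have hI := intCoeff_ratCurve W (padicPlace p)
  have hΔ := valuation_Δ_ratCurve W hp.out hA hg
  have := redP_isElliptic hg
  have hdeg : ((OpenImageAll.reduced hI).ΨSq (p : ℤ)).natDegree ≠ 0 := by
    intro hdeg
    have h1 := natCard_redP hg ha 1
    rw [pow_one] at h1
    have : Nontrivial (nsmulAddMonoidHom (α := (redP p W).toAffine.Point) p).ker := by
      have : Finite (nsmulAddMonoidHom (α := (redP p W).toAffine.Point) p).ker :=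
        Nat.finite_of_card_ne_zero (h1.trans_ne hp.out.ne_zero)
      exact Finite.one_lt_card_iff_nontrivial.1 (hp.out.one_lt.trans_eq h1.symm)
    obtain ⟨⟨P, hP⟩, hP0⟩ := exists_ne
      (0 : (nsmulAddMonoidHom (α := (redP p W).toAffine.Point) p).ker)
    rw [AddMonoidHom.mem_ker, nsmulAddMonoidHom_apply] at hP
    obtain ⟨x, y, h, rfl⟩ := exists_some_of_ne_zero fun e => hP0 (Subtype.ext e)
    have h0 := (FA.EC.nsmul_eq_zero_iff h p).1 hP
    refine OpenImageAll.reduced_ΨSq_ne_zero hp.out hA hI hΔ ?_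
    rw [Polynomial.eq_C_of_natDegree_eq_zero hdeg]
    have e : OpenImageAll.reduced hI = redP p W := rfl
    rw [← e, Polynomial.eq_C_of_natDegree_eq_zero hdeg, Polynomial.eval_C] at h0
    rw [h0, map_zero]
  obtain ⟨T, hT, hTE⟩ :=
    OpenImageAll.exists_torsion_not_e1_of_root hp.out hA (hI := hI) hΔ hdeg 0
  rw [pow_zero, one_nsmul] at hTE
  rw [zero_add, pow_one] at hT
  exact ⟨T, hT, fun h => hTE ((redPt_eq_zero_iff hg).1 h)⟩

include hg in
/-- **The frame**: a basis in which the kernel of reduction is the first axis at every level. -/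
theorem exists_frame (ha : ¬ (p : ℤ) ∣ W.apOfModel p) (B : TateBasis p W) :
    ∃ C : Matrix (Fin 2) (Fin 2) ℤ_[p], IsUnit C.det ∧ ∀ n v,
      redPt hg (B.φ n v) = 0 ↔ PadicInt.toZModPow n ((C⁻¹ *ᵥ v) 1) = 0 := by
  have hpp := hp.out
  set K : ℕ → AddSubgroup (redP p W).toAffine.Point := fun n =>
    (nsmulAddMonoidHom (α := (redP p W).toAffine.Point) (p ^ n)).ker
  have hK : ∀ n v, redPt hg (B.φ n v) ∈ K n := fun n v => by
    rw [AddMonoidHom.mem_ker, nsmulAddMonoidHom_apply, ← map_nsmul, B.nsmul_phi, map_zero]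
  -- some axis vector reduces to a nonzero point
  obtain ⟨i, hi⟩ : ∃ i : Fin 2, redPt hg (B.φ 1 (Pi.single i 1)) ≠ 0 := by
    by_contra hne
    push Not at hne
    obtain ⟨T, hT, hT0⟩ := exists_redPt_ne_zero hg ha
    obtain ⟨v, rfl⟩ := B.surj 1 T (by rwa [pow_one])
    refine hT0 ?_
    have : NeZero (p ^ 1) := ⟨pow_ne_zero _ hpp.ne_zero⟩
    set k : Fin 2 → ℕ := fun j => (PadicInt.toZModPow 1 (v j)).val
    have hv' : (k 0 • Pi.single 0 1 + k 1 • Pi.single 1 1 : Fin 2 → ℤ_[p]) =
        fun j => (k j : ℤ_[p]) := funext fun j => by fin_cases j <;> simp [nsmul_eq_mul]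
    have hv : B.φ 1 v = B.φ 1 (k 0 • Pi.single 0 1 + k 1 • Pi.single 1 1) :=
      B.phi_eq_iff.2 fun j => by rw [hv', map_natCast, ZMod.natCast_zmod_val]
    rw [hv, map_add, map_add, map_nsmul, map_nsmul, map_nsmul, map_nsmul, hne, hne, nsmul_zero,
      nsmul_zero, add_zero]
  set g : ℕ → (redP p W).toAffine.Point := fun n => redPt hg (B.φ n (Pi.single i 1))
  have hord : ∀ n, addOrderOf (g n) = p ^ n := by
    rintro (_ | n)
    · simp [g, B.phi_zero_level]
    · refine addOrderOf_eq_prime_pow ?_ ?_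
      · rw [← map_nsmul, add_comm n 1, B.pow_compat 1 n]
        exact hi
      · rw [← map_nsmul, B.nsmul_phi, map_zero]
  have hgen : ∀ n x, x ∈ K n → ∃ k : ℕ, x = k • g n := by
    intro n x hx
    have hpn := pow_ne_zero n hpp.ne_zero
    have : Finite (K n) := Nat.finite_of_card_ne_zero (by rw [natCard_redP hg ha]; exact hpn)
    let ψ : Fin (p ^ n) → K n := fun k =>
      ⟨(k : ℕ) • g n, (K n).nsmul_mem (hK n _) _⟩
    have hψ : Function.Injective ψ := fun k l h => by
      have h' : (k : ℕ) • g n = (l : ℕ) • g n := congrArg (fun t : K n => t.1) h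
      rw [nsmul_eq_nsmul_iff_modEq, hord] at h'
      exact Fin.ext (Nat.ModEq.eq_of_lt_of_lt h' k.2 l.2)
    obtain ⟨k, hk⟩ := ((Nat.bijective_iff_injective_and_card ψ).2
      ⟨hψ, by rw [Nat.card_fin, natCard_redP hg ha]⟩).2 ⟨x, hx⟩
    exact ⟨k, (congrArg Subtype.val hk).symm⟩
  obtain ⟨j, hij⟩ : ∃ j : Fin 2, j ≠ i := exists_ne i
  choose k hk using fun n => hgen n _ (hK n (Pi.single j 1))
  have hcompat : ∀ n m, m ≤ n → PadicInt.toZModPow m (k n : ℤ_[p]) =
      PadicInt.toZModPow m (k m : ℤ_[p]) := fun n m hmn => by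
    obtain ⟨d, rfl⟩ := Nat.exists_eq_add_of_le hmn
    rw [map_natCast, map_natCast, ZMod.natCast_eq_natCast_iff, ← hord m,
      ← nsmul_eq_nsmul_iff_modEq]
    have h1 : p ^ d • redPt hg (B.φ (m + d) (Pi.single j 1)) =
        p ^ d • (k (m + d) • g (m + d)) := by rw [hk]
    have hgd : ∀ l, p ^ d • redPt hg (B.φ (m + d) (Pi.single l 1)) =
        redPt hg (B.φ m (Pi.single l 1)) := fun l => by rw [← map_nsmul, B.pow_compat]
    rw [hgd j, smul_comm, hgd i] at h1
    exact h1.symm.trans (hk m)
  obtain ⟨c, hc⟩ := (IsAdicComplete.toIsPrecomplete :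
      IsPrecomplete (IsLocalRing.maximalIdeal ℤ_[p]) ℤ_[p]).prec (f := fun n => (k n : ℤ_[p]))
    fun {m n} hmn => by
      rw [SModEq.sub_mem, smul_eq_mul, Ideal.mul_top, PadicInt.maximalIdeal_eq_span_p,
        Ideal.span_singleton_pow, ← PadicInt.ker_toZModPow, RingHom.mem_ker, map_sub,
        hcompat n m hmn, sub_self]
  have hcn : ∀ n, PadicInt.toZModPow n c = PadicInt.toZModPow n (k n : ℤ_[p]) := fun n => by
    have h := hc n
    rw [SModEq.sub_mem, smul_eq_mul, Ideal.mul_top, PadicInt.maximalIdeal_eq_span_p,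
      Ideal.span_singleton_pow, ← PadicInt.ker_toZModPow, RingHom.mem_ker, map_sub,
      sub_eq_zero] at h
    exact h.symm
  have hl : ∀ n v, redPt hg (B.φ n v) = 0 ↔ PadicInt.toZModPow n (v i + c * v j) = 0 := by
    intro n v
    have : NeZero (p ^ n) := ⟨pow_ne_zero _ hpp.ne_zero⟩
    set a := (PadicInt.toZModPow n (v i)).val
    set b := (PadicInt.toZModPow n (v j)).val
    have hv : B.φ n v = B.φ n (a • Pi.single i 1 + b • Pi.single j 1) :=
      B.phi_eq_iff.2 fun l => by
        rcases (show l = i ∨ l = j by omega) with rfl | rfl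
        · rw [Pi.add_apply, Pi.smul_apply, Pi.smul_apply, Pi.single_eq_same,
            Pi.single_eq_of_ne hij.symm, nsmul_one, smul_zero, add_zero, map_natCast,
            ZMod.natCast_zmod_val]
        · rw [Pi.add_apply, Pi.smul_apply, Pi.smul_apply, Pi.single_eq_same,
            Pi.single_eq_of_ne hij, nsmul_one, smul_zero, zero_add, map_natCast,
            ZMod.natCast_zmod_val]
    rw [hv, map_add, map_add, map_nsmul, map_nsmul, map_nsmul, map_nsmul, hk n, ← mul_nsmul',
      ← add_nsmul, ← addOrderOf_dvd_iff_nsmul_eq_zero, hord, ← ZMod.natCast_eq_zero_iff,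
      map_add, map_mul, hcn, map_natCast]
    simp [a, b, mul_comm]
  obtain ⟨C, hC, hrow⟩ : ∃ C : Matrix (Fin 2) (Fin 2) ℤ_[p], IsUnit C.det ∧
      ∀ v : Fin 2 → ℤ_[p], (C⁻¹ *ᵥ v) 1 = v i + c * v j := by
    fin_cases i <;> fin_cases j <;> simp at hij
    · refine ⟨!![-c, 1; 1, 0], by simp [Matrix.det_fin_two_of], fun v => ?_⟩
      rw [Matrix.inv_eq_right_inv (B := !![0, 1; 1, c]) (by
        ext a b; fin_cases a <;> fin_cases b <;> simp [Matrix.mul_apply, Fin.sum_univ_two])]
      simp [Matrix.mulVec, dotProduct, Fin.sum_univ_two]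
    · refine ⟨!![1, 0; -c, 1], by simp [Matrix.det_fin_two_of], fun v => ?_⟩
      rw [Matrix.inv_eq_right_inv (B := !![1, 0; c, 1]) (by
        ext a b; fin_cases a <;> fin_cases b <;> simp [Matrix.mul_apply, Fin.sum_univ_two])]
      simp [Matrix.mulVec, dotProduct, Fin.sum_univ_two, add_comm]
  exact ⟨C, hC, fun n v => by rw [hl, hrow]⟩

end FA.OrdDR
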