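import Fermat.Agent.PadicCharacters.Residue
import Fermat.Agent.GalCoh.UnrLocal
import Fermat.Agent.RT.Tate.Good
import Mathlib.FieldTheory.Finite.Basic
import Mathlib.RingTheory.Polynomial.Content
import Mathlib.RingTheory.Localization.Integral

/-!
# The action of a local automorphism on the residue field at `p`

An algebraic number of norm at most one is congruent to zero or to a root of unity of order prime
to `p`, so an automorphism of `ℚ̄_p` raising these roots to the power `p ^ a` acts on the residue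
field of the place at `p` by the same power.
-/

set_option autoImplicit false
set_option linter.unusedSectionVars false

noncomputable section

open Finset Polynomial WeierstrassCurve FA.TateSen FA.BDR FA.PadicChar FA.Frob FA.RT.Tate
open scoped WeierstrassCurve.Affine

namespace FA.OrdDR

variable {p : ℕ} [hp : Fact p.Prime]

local notation "Ω" => PadicAlgCl p
local notation "G" => PadicAlgCl p ≃ₐ[ℚ_[p]] PadicAlgCl p
local notation "Qb" => AlgebraicClosure ℚ

/-- The reduction of an algebraic element is a root of a nonzero polynomial over `ℤ / p`. -/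
theorem red_isRoot (y : omegaInt p) (hy : IsAlgebraic ℚ (y : Ω)) :
    ∃ f : (ZMod p)[X], f ≠ 0 ∧
      (f.map (ZMod.castHom (dvd_refl p) (Res p))).eval (FA.PadicChar.redHom p y) = 0 := by
  obtain ⟨P, hP, hPy⟩ := (IsFractionRing.isAlgebraic_iff ℤ ℚ Ω).2 hy
  set Q := P.primPart
  have hQ : aeval (y : Ω) Q = 0 := aeval_primPart_eq_zero hP hPy
  refine ⟨Q.map (Int.castRingHom (ZMod p)), fun h => ?_, ?_⟩
  · have h1 : ∀ i, (p : ℤ) ∣ Q.coeff i := fun i => by
      have h2 := congrArg (fun g : (ZMod p)[X] => g.coeff i) h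
      rw [Polynomial.coeff_map, Polynomial.coeff_zero] at h2
      exact (ZMod.intCast_zmod_eq_zero_iff_dvd _ p).1 h2
    have h3 : IsUnit (p : ℤ) :=
      P.isPrimitive_primPart _ ((Polynomial.C_dvd_iff_dvd_coeff _ _).2 h1)
    exact (Nat.prime_iff_prime_int.1 hp.out).not_isUnit h3
  · have e : (ZMod.castHom (dvd_refl p) (Res p)).comp (Int.castRingHom (ZMod p)) =
        (FA.PadicChar.redHom p).comp (Int.castRingHom (omegaInt p)) := RingHom.ext_int _ _
    rw [Polynomial.map_map, e, ← Polynomial.map_map, eval_map_apply]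
    have h0 : (Q.map (Int.castRingHom (omegaInt p))).eval y = 0 := Subtype.ext (by
      rw [ZeroMemClass.coe_zero, ← Subring.subtype_apply, ← eval_map_apply, Polynomial.map_map,
        RingHom.ext_int ((omegaInt p).subtype.comp (Int.castRingHom _)) (algebraMap ℤ Ω),
        eval_map, ← aeval_def]
      exact hQ)
    rw [h0, map_zero]

/-- An algebraic element of norm at most one reduces to zero or to a root of unity of order prime
to `p`. -/
theorem exists_root_near (y : omegaInt p) (hy : IsAlgebraic ℚ (y : Ω)) :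
    FA.PadicChar.redHom p y = 0 ∨
      ∃ (N : ℕ) (z : omegaInt p), ¬ p ∣ N ∧ z ^ N = 1 ∧
        FA.PadicChar.redHom p y = FA.PadicChar.redHom p z := by
  classical
  obtain ⟨f, hf0, hfy⟩ := red_isRoot y hy
  set α := FA.PadicChar.redHom p y
  by_cases hα : α = 0
  · exact Or.inl hα
  refine Or.inr ?_
  let _ : Algebra (ZMod p) (Res p) := ZMod.algebra _ p
  have hint : IsIntegral (ZMod p) α := IsAlgebraic.isIntegral ⟨f, hf0, by
    rw [aeval_def, ← eval_map, RingHom.ext_zmod (algebraMap (ZMod p) (Res p))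
      (ZMod.castHom (dvd_refl p) (Res p))]
    exact hfy⟩
  set F := IntermediateField.adjoin (ZMod p) {α}
  have : FiniteDimensional (ZMod p) F := IntermediateField.adjoin.finiteDimensional hint
  have : Finite F := Module.finite_of_finite (ZMod p)
  let _ : Fintype F := Fintype.ofFinite F
  set k := Module.finrank (ZMod p) F
  have hk : 0 < k := Module.finrank_pos
  have hcard : Fintype.card F = p ^ k := by
    rw [Module.card_eq_pow_finrank (K := ZMod p), ZMod.card]
  have hN := ordUr_pos (p := p) hk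
  have hαN : α ^ ordUr p k = 1 := by
    have h1 := FiniteField.pow_card_sub_one_eq_one
      (⟨α, IntermediateField.mem_adjoin_simple_self _ α⟩ : F) fun e => hα (congrArg Subtype.val e)
    rw [hcard] at h1
    exact congrArg Subtype.val h1
  obtain ⟨z, hz⟩ := exists_primitive_ur (p := p) hN
  set zi := rootInt z hN hz.pow_eq_one
  have hzN : zi ^ ordUr p k = 1 := Subtype.ext hz.pow_eq_one
  have hz' : IsPrimitiveRoot (FA.PadicChar.redHom p zi) (ordUr p k) := by
    refine IsPrimitiveRoot.mk_of_lt _ hN (by rw [← map_pow, hzN, map_one]) fun l hl hlk h => ?_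
    have h2 : zi ^ l = 1 := root_eq_one_of_red (not_dvd_ordUr hk)
      (by rw [← pow_mul, mul_comm, pow_mul, hzN, one_pow]) (by rw [map_pow, h])
    exact hz.pow_ne_one_of_pos_of_lt hl.ne' hlk (congrArg Subtype.val h2)
  have : NeZero (ordUr p k) := ⟨hN.ne'⟩
  obtain ⟨i, -, hi⟩ := hz'.eq_pow_of_pow_eq_one hαN
  exact ⟨ordUr p k, zi ^ i, not_dvd_ordUr hk,
    by rw [← pow_mul, mul_comm, pow_mul, hzN, one_pow], by rw [map_pow, hi]⟩

variable {σ : PadicAlgCl p ≃ₐ[ℚ_[p]] PadicAlgCl p} {a : ℕ}

/-- An automorphism acting by a power of `p` on the roots of unity of order prime to `p` does so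
modulo the maximal ideal on every algebraic number of norm at most one. -/
theorem norm_sub_pow_lt
    (h : ∀ (N : ℕ) (z : Ω), ¬ p ∣ N → z ^ N = 1 → σ z = z ^ p ^ a)
    (y : omegaInt p) (hy : IsAlgebraic ℚ (y : Ω)) :
    ‖σ (y : Ω) - (y : Ω) ^ p ^ a‖ < 1 := by
  let σi : omegaInt p →+* omegaInt p := ((σ : Ω →+* Ω).comp (omegaInt p).subtype).codRestrict
    (omegaInt p) (fun x => (norm_gal σ (x : Ω)).trans_le x.2)
  have hσi : ∀ x : omegaInt p, (σi x : Ω) = σ (x : Ω) := fun x => rfl
  have key : FA.PadicChar.redHom p (σi y - y ^ p ^ a) = 0 := by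
    rcases exists_root_near y hy with h0 | ⟨N, z, hN, hz, hyz⟩
    · have h1 : FA.PadicChar.redHom p (σi y) = 0 :=
        redHom_eq_zero_iff.2 (by rw [hσi, norm_gal]; exact redHom_eq_zero_iff.1 h0)
      rw [map_sub, map_pow, h0, h1, zero_pow (pow_ne_zero _ hp.out.ne_zero), sub_zero]
    · have hz' : (z : Ω) ^ N = 1 := by
        rw [← SubmonoidClass.coe_pow, hz, OneMemClass.coe_one]
      have h1 : FA.PadicChar.redHom p (σi (y - z)) = 0 :=
        redHom_eq_zero_iff.2 (by
          rw [hσi, norm_gal]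
          exact redHom_eq_zero_iff.1 (by rw [map_sub, hyz, sub_self]))
      have h2 : σi z = z ^ p ^ a := Subtype.ext (by
        rw [hσi, SubmonoidClass.coe_pow, h N (z : Ω) hN hz'])
      rw [map_sub σi, map_sub, sub_eq_zero, h2] at h1
      rw [map_sub, h1, map_pow, map_pow, hyz, sub_self]
  have h3 := redHom_eq_zero_iff.1 key
  rw [AddSubgroupClass.coe_sub, SubmonoidClass.coe_pow, hσi] at h3
  exact h3

theorem norm_apply_sub_pow_lt
    (h : ∀ (N : ℕ) (z : Ω), ¬ p ∣ N → z ^ N = 1 → σ z = z ^ p ^ a)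
    (x : Qb) (hx : ‖padicEmbedding p x‖ ≤ 1) :
    ‖σ (padicEmbedding p x) - padicEmbedding p x ^ p ^ a‖ < 1 :=
  norm_sub_pow_lt h ⟨padicEmbedding p x, hx⟩
    ((Algebra.IsAlgebraic.isAlgebraic x).algHom (padicEmbedding p))

theorem loc_mem_padicPlace_iff (τ : G) (x : Qb) :
    localGaloisToGlobal p τ x ∈ padicPlace p ↔ x ∈ padicPlace p := by
  rw [mem_padicPlace_iff, mem_padicPlace_iff, padicEmbedding_localGaloisToGlobal,
    ← NNReal.coe_le_coe, ← NNReal.coe_le_coe, coe_nnnorm, coe_nnnorm, norm_gal]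

/-- **The action on the residue field.** -/
theorem resOf_loc (h : ∀ (N : ℕ) (z : Ω), ¬ p ∣ N → z ^ N = 1 → σ z = z ^ p ^ a) {x : Qb}
    (hx : x ∈ padicPlace p) :
    resOf (padicPlace p) (localGaloisToGlobal p σ x) = resOf (padicPlace p) x ^ p ^ a := by
  have hxa : x ^ p ^ a ∈ padicPlace p := pow_mem hx _
  have e : resOf (padicPlace p) (x ^ p ^ a) = resOf (padicPlace p) x ^ p ^ a :=
    (resOf_coe _ (⟨x, hx⟩ ^ p ^ a)).trans ((map_pow _ _ _).trans
      (by rw [← resOf_coe (padicPlace p) ⟨x, hx⟩]))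
  rw [← e, resOf_eq_iff _ ((loc_mem_padicPlace_iff σ x).2 hx) hxa,
    ← ValuationSubring.mem_nonunits_iff, FA.GalCoh.mem_nonunits_padicPlace, map_sub, map_pow,
    padicEmbedding_localGaloisToGlobal]
  refine norm_apply_sub_pow_lt h x ?_
  rw [mem_padicPlace_iff, ← NNReal.coe_le_coe, coe_nnnorm, NNReal.coe_one] at hx
  exact hx

end FA.OrdDR
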