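import Fermat.Agent.OrdinaryDeRham.Frame
import Fermat.Agent.CurveDeRham.Multiplicative

/-!
# The shape of the Tate module at a prime of good ordinary reduction

The decomposition group preserves the kernel of reduction, inertia fixes the reduced points and a
Frobenius element satisfies the equation `X ^ 2 - a_p X + p` on them. So the representation is an
extension of an unramified character, whose value at Frobenius is the unit root, by the cyclotomic
character times its inverse.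
-/

set_option autoImplicit false
set_option linter.unusedSectionVars false
set_option linter.style.haveILetI false

noncomputable section

open Matrix WeierstrassCurve FA.TateSen FA.BDR FA.Frob FA.EC FA.Local FA.RT.Tate FA.PadicChar
  FA.PadicHodge FA.CurveDR
open scoped WeierstrassCurve.Affine Classical

namespace FA.OrdDR

variable {p : ℕ} [hp : Fact p.Prime] {W : WeierstrassCurve ℤ} [(ratCurve W).IsElliptic]
  (hg : W.IsGoodPrimeFor p)

local notation "G" => PadicAlgCl p ≃ₐ[ℚ_[p]] PadicAlgCl p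
local notation "Qb" => AlgebraicClosure ℚ
local notation "Ω" => PadicAlgCl p

theorem redPt_some_of_mem {x y : Qb} (h : ((ratCurve W)⁄Qb).toAffine.Nonsingular x y)
    (hx : x ∈ padicPlace p) :
    ∃ k, redPt hg (.some x y h) =
      .some (resOf (padicPlace p) x) (resOf (padicPlace p) y) k := by
  haveI := redP_isElliptic hg
  obtain ⟨k, e⟩ := redFun_of_mem (intCoeff_ratCurve W (padicPlace p)) h hx
  exact ⟨k, e⟩

theorem redPt_of_not_mem {x y : Qb} (h : ((ratCurve W)⁄Qb).toAffine.Nonsingular x y)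
    (hx : x ∉ padicPlace p) : redPt hg (.some x y h) = 0 := by
  haveI := redP_isElliptic hg
  show redFun (intCoeff_ratCurve W (padicPlace p))
    (Affine.Point.some x y h : ((ratCurve W)⁄Qb).toAffine.Point) = 0
  rw [redFun, dif_neg hx]

theorem mem_y {x y : Qb} (h : ((ratCurve W)⁄Qb).toAffine.Nonsingular x y)
    (hx : x ∈ padicPlace p) : y ∈ padicPlace p :=
  y_mem (intCoeff_ratCurve W (padicPlace p)) h.1 hx

/-- The decomposition group preserves the kernel of reduction. -/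
theorem redPt_smul_eq_zero (τ : G) {P : Pts W} (hP : redPt hg P = 0) :
    redPt hg (localGaloisToGlobal p τ • P) = 0 := by
  rcases P with _ | ⟨x, y, h⟩
  · exact map_zero _
  obtain ⟨h', he⟩ := smul_some (σ := localGaloisToGlobal p τ) (ratCurve W) h
  rw [he]
  by_cases hx : x ∈ padicPlace p
  · obtain ⟨k, e⟩ := redPt_some_of_mem hg h hx
    exact absurd (e.symm.trans hP) (Affine.Point.some_ne_zero _)
  · exact redPt_of_not_mem hg h' fun h => hx ((loc_mem_padicPlace_iff τ x).1 h)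

/-- Inertia fixes the reduced points. -/
theorem redPt_smul_inertia {σ : G} (hσ : σ ∈ inertiaGal p) (P : Pts W) :
    redPt hg (localGaloisToGlobal p σ • P) = redPt hg P := by
  rcases P with _ | ⟨x, y, h⟩
  · rfl
  obtain ⟨h', he⟩ := smul_some (σ := localGaloisToGlobal p σ) (ratCurve W) h
  rw [he]
  by_cases hx : x ∈ padicPlace p
  · obtain ⟨k₁, e₁⟩ := redPt_some_of_mem hg h hx
    obtain ⟨k₂, e₂⟩ := redPt_some_of_mem hg h' ((loc_mem_padicPlace_iff σ x).2 hx)
    have hσ' : ∀ (N : ℕ) (z : Ω), ¬ p ∣ N → z ^ N = 1 → σ z = z ^ p ^ 0 := fun N z hN hz => by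
      rw [pow_zero, pow_one]
      exact mem_inertiaGal.1 hσ N z hN hz
    rw [e₁, e₂]
    simp only [Affine.Point.some.injEq]
    exact ⟨(resOf_loc hσ' hx).trans (by rw [pow_zero, pow_one]),
      (resOf_loc hσ' (mem_y h hx)).trans (by rw [pow_zero, pow_one])⟩
  · rw [redPt_of_not_mem hg h hx,
      redPt_of_not_mem hg h' fun h => hx ((loc_mem_padicPlace_iff σ x).1 h)]

/-- A Frobenius element acts on the reduced points as the Frobenius. -/
theorem redPt_smul_frobenius {φ : G} (hφ : ∀ (N : ℕ) (z : Ω), ¬ p ∣ N → z ^ N = 1 → φ z = z ^ p)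
    (P : Pts W) :
    redPt hg (localGaloisToGlobal p φ • P) =
      frobEnd (redP p W) map_frobenius_redP (redPt hg P) := by
  rcases P with _ | ⟨x, y, h⟩
  · rfl
  obtain ⟨h', he⟩ := smul_some (σ := localGaloisToGlobal p φ) (ratCurve W) h
  rw [he]
  by_cases hx : x ∈ padicPlace p
  · obtain ⟨k₁, e₁⟩ := redPt_some_of_mem hg h hx
    obtain ⟨k₂, e₂⟩ := redPt_some_of_mem hg h' ((loc_mem_padicPlace_iff φ x).2 hx)
    have hφ' : ∀ (N : ℕ) (z : Ω), ¬ p ∣ N → z ^ N = 1 → φ z = z ^ p ^ 1 := fun N z hN hz => by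
      rw [pow_one]
      exact hφ N z hN hz
    rw [e₁, e₂, frobEnd, mapHom_some]
    simp only [Affine.Point.some.injEq, frobenius_def]
    exact ⟨(resOf_loc hφ' hx).trans (by rw [pow_one]),
      (resOf_loc hφ' (mem_y h hx)).trans (by rw [pow_one])⟩
  · rw [redPt_of_not_mem hg h hx,
      redPt_of_not_mem hg h' (fun h => hx ((loc_mem_padicPlace_iff φ x).1 h)), map_zero]

include hg in
theorem trEnd_redP :
    haveI := redP_isElliptic hg
    trEnd (redP p W) map_frobenius_redP = W.apOfModel p := by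
  haveI := isElliptic_reductionMod hg
  haveI := redP_isElliptic hg
  rw [trEnd_congr redP_eq_map map_frobenius_redP (map_frobenius_map _ (castP p)),
    trEnd_map (W.reductionMod p) (castP p), apOfModel]

include hg in
/-- **The shape at a prime of good ordinary reduction.** -/
theorem exists_shape (ha : ¬ (p : ℤ) ∣ W.apOfModel p) (B : TateBasis p W) :
    ∃ (C : (Matrix (Fin 2) (Fin 2) ℚ_[p])ˣ) (η : G →* ℚ_[p]) (y : G → ℚ_[p]),
      Continuous η ∧ Continuous y ∧ (∀ τ, ‖η τ‖ = 1) ∧ (∀ τ ∈ inertiaGal p, η τ = 1) ∧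
      (∀ φ : G, (∀ (N : ℕ) (z : Ω), ¬ p ∣ N → z ^ N = 1 → φ z = z ^ p) →
        η φ ^ 2 - (W.apOfModel p : ℚ_[p]) * η φ + (p : ℚ_[p]) = 0) ∧
      ∀ τ, curveAtP B τ * (C : Matrix (Fin 2) (Fin 2) ℚ_[p]) =
        (C : Matrix (Fin 2) (Fin 2) ℚ_[p]) *
          !![((chi p τ : ℤ_[p]) : ℚ_[p]) * (η τ)⁻¹, y τ; 0, η τ] := by
  haveI := redP_isElliptic hg
  obtain ⟨C₀, hC₀, hker⟩ := exists_frame hg ha B
  set S : G → Matrix (Fin 2) (Fin 2) ℤ_[p] := fun τ =>
    C₀⁻¹ * (B.rep (localGaloisToGlobal p τ) * C₀)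
  -- reduction of a translate of an axis vector
  have hcol : ∀ τ j, (C₀⁻¹ *ᵥ (B.rep (localGaloisToGlobal p τ) *ᵥ (C₀ *ᵥ Pi.single j 1))) 1 =
      S τ 1 j := fun τ j => by
    rw [mulVec_mulVec, mulVec_mulVec, mul_assoc, mulVec_single_one]
    rfl
  have hC1 : ∀ j, (C₀⁻¹ *ᵥ (C₀ *ᵥ Pi.single j 1)) 1 = if j = 1 then 1 else (0 : ℤ_[p]) :=
      fun j => by
    rw [mulVec_mulVec, Matrix.nonsing_inv_mul _ hC₀, one_mulVec, Pi.single_apply]
    simp only [eq_comm]
  have h10 : ∀ τ, S τ 1 0 = 0 := fun τ => PadicInt.ext_of_toZModPow.mp fun n => by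
    have h : redPt hg (B.φ n (C₀ *ᵥ Pi.single 0 1)) = 0 :=
      (hker n _).2 (by rw [hC1]; simp)
    have h' := (hker n _).1 ((congrArg (redPt hg) (B.rep_spec _ n _)).symm.trans
      (redPt_smul_eq_zero hg τ h))
    rw [hcol] at h'
    rw [map_zero]
    exact h'
  have hinert : ∀ τ ∈ inertiaGal p, S τ 1 1 = 1 := fun τ hτ =>
    PadicInt.ext_of_toZModPow.mp fun n => by
      have h : redPt hg (B.φ n (B.rep (localGaloisToGlobal p τ) *ᵥ (C₀ *ᵥ Pi.single 1 1) -
          C₀ *ᵥ Pi.single 1 1)) = 0 := by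
        rw [map_sub, map_sub, ← B.rep_spec, redPt_smul_inertia hg hτ, sub_self]
      have h' := (hker n _).1 h
      rw [mulVec_sub, Pi.sub_apply, hcol, hC1, if_pos rfl, map_sub, map_one, sub_eq_zero] at h'
      rw [map_one]
      exact h'
  have hS1 : S 1 = 1 := by
    simp only [S, map_one, one_mul, Matrix.nonsing_inv_mul _ hC₀]
  have hSm : ∀ σ τ, S (σ * τ) = S σ * S τ := fun σ τ => by
    simp only [S, map_mul, mul_assoc]
    rw [← mul_assoc C₀ C₀⁻¹, Matrix.mul_nonsing_inv _ hC₀, one_mul]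
  have hfrob : ∀ φ : G, (∀ (N : ℕ) (z : Ω), ¬ p ∣ N → z ^ N = 1 → φ z = z ^ p) →
      S φ 1 1 ^ 2 - (W.apOfModel p : ℤ_[p]) * S φ 1 1 + (p : ℤ_[p]) = 0 := fun φ hφ =>
    PadicInt.ext_of_toZModPow.mp fun n => by
      set M := B.rep (localGaloisToGlobal p φ)
      set e := C₀ *ᵥ Pi.single 1 1 with he
      have hq : redPt hg (B.φ n (M *ᵥ (M *ᵥ e) - W.apOfModel p • (M *ᵥ e) + (p : ℤ) • e)) = 0 := by
        simp only [map_add, map_sub, map_zsmul, ← B.rep_spec, M, redPt_smul_frobenius hg hφ]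
        rw [← trEnd_redP hg]
        exact frobEnd_quadratic (redP p W) map_frobenius_redP _
      have h' := (hker n _).1 hq
      have h2 : (C₀⁻¹ *ᵥ (M *ᵥ (M *ᵥ e))) 1 = S φ 1 1 ^ 2 := by
        have hmm : M *ᵥ (M *ᵥ e) = B.rep (localGaloisToGlobal p (φ * φ)) *ᵥ e := by
          rw [mulVec_mulVec, map_mul, map_mul]
        rw [hmm, he, hcol, hSm, Matrix.mul_apply, Fin.sum_univ_two, h10, zero_mul, zero_add, sq]
      have h0 : (C₀⁻¹ *ᵥ e) 1 = 1 := by rw [he, hC1, if_pos rfl]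
      rw [mulVec_add, mulVec_sub, mulVec_smul, mulVec_smul, Pi.add_apply, Pi.sub_apply,
        Pi.smul_apply, Pi.smul_apply, h2, he, hcol, ← he, h0, zsmul_eq_mul, zsmul_eq_mul,
        mul_one, Int.cast_natCast] at h'
      rw [map_zero]
      exact h'
  -- the matrices over `ℚ_p`
  obtain ⟨C, hC⟩ : IsUnit (C₀.map (PadicInt.Coe.ringHom (p := p))) :=
    ((Matrix.isUnit_iff_isUnit_det _).2 hC₀).map (PadicInt.Coe.ringHom (p := p)).mapMatrix
  set T : G → Matrix (Fin 2) (Fin 2) ℚ_[p] := fun τ =>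
    (↑C⁻¹ : Matrix (Fin 2) (Fin 2) ℚ_[p]) * curveAtP B τ * (C : Matrix (Fin 2) (Fin 2) ℚ_[p])
  have hT : ∀ τ, curveAtP B τ * (C : Matrix (Fin 2) (Fin 2) ℚ_[p]) =
      (C : Matrix (Fin 2) (Fin 2) ℚ_[p]) * T τ := fun τ => by
    simp only [T, ← mul_assoc, Units.mul_inv, one_mul]
  have hTe : ∀ τ, T τ = (S τ).map (PadicInt.Coe.ringHom (p := p)) := fun τ => by
    have e : C₀ * S τ = B.rep (localGaloisToGlobal p τ) * C₀ := by
      simp only [S, ← mul_assoc, Matrix.mul_nonsing_inv _ hC₀, one_mul]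
    have e' := congrArg (fun M : Matrix (Fin 2) (Fin 2) ℤ_[p] =>
      M.map (PadicInt.Coe.ringHom (p := p))) e
    simp only [Matrix.map_mul, ← hC] at e'
    simp only [T, curveAtP, mul_assoc, ← e', Units.inv_mul_cancel_left]
  have hρ := isQpRep_curveAtP B
  have hTc : Continuous T := (continuous_const.mul hρ.cont).mul continuous_const
  have hdet : ∀ τ, T τ 0 0 * T τ 1 1 = ((chi p τ : ℤ_[p]) : ℚ_[p]) := fun τ => by
    have h1 : (T τ).det = (curveAtP B τ).det := Matrix.det_units_conj' C _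
    have h2 : T τ 1 0 = 0 := by rw [hTe, Matrix.map_apply, h10, map_zero]
    rw [Matrix.det_fin_two, h2, mul_zero, sub_zero, det_curveAtP] at h1
    exact h1
  let η : G →* ℚ_[p] :=
    { toFun := fun τ => T τ 1 1
      map_one' := by rw [hTe, hS1, Matrix.map_apply, Matrix.one_apply_eq, map_one]
      map_mul' := fun σ τ => by
        simp only [hTe, Matrix.map_apply, hSm, Matrix.mul_apply, Fin.sum_univ_two, h10, zero_mul,
          zero_add, map_mul] }
  have hη : Continuous η := hTc.matrix_elem 1 1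
  refine ⟨C, η, fun τ => T τ 0 1, hη, hTc.matrix_elem 0 1, norm_hom_eq_one hη,
    fun τ hτ => ?_, fun φ hφ => ?_, fun τ => ?_⟩
  · show T τ 1 1 = 1
    rw [hTe, Matrix.map_apply, hinert τ hτ, map_one]
  · have h1 := congrArg (PadicInt.Coe.ringHom (p := p)) (hfrob φ hφ)
    simp only [map_add, map_sub, map_mul, map_pow, map_zero, map_intCast, map_natCast] at h1
    show T φ 1 1 ^ 2 - _ * T φ 1 1 + _ = 0
    rw [hTe, Matrix.map_apply]
    exact h1
  · rw [hT τ]
    congr 1
    have h00 : T τ 0 0 = ((chi p τ : ℤ_[p]) : ℚ_[p]) * (η τ)⁻¹ := by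
      rw [← hdet τ]
      exact (mul_inv_cancel_right₀
        (norm_ne_zero_iff.1 ((norm_hom_eq_one hη τ).trans_ne one_ne_zero) : T τ 1 1 ≠ 0) _).symm
    have h10' : T τ 1 0 = 0 := by rw [hTe, Matrix.map_apply, h10, map_zero]
    ext a b
    fin_cases a <;> fin_cases b <;> simp [η, h00, h10']

end FA.OrdDR
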